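import Mathlib.Analysis.Calculus.SmoothSeries
import Fermat.Agent.Mazur.Moduli.QSeries
import Fermat.Agent.XHLite.Analytic.Eisenstein

/-!
# The normalised derivative of `℘` at division points: transformation, holomorphy and series
-/

set_option autoImplicit false

noncomputable section

open Filter Topology Complex UpperHalfPlane EisensteinSeries
open scoped Real Manifold MatrixGroups

namespace Fermat.Agent.Row48.WeightOne

open Mazur.Moduli X0Analytic

/-- `℘' / (2πi)³` for the lattice `ℤτ + ℤ`. -/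
def wpD (z : ℂ) (τ : ℍ) : ℂ :=
  PeriodPair.derivWeierstrassP (tauPair τ) z / (scaleC * (2 * π * Complex.I))

/-- `u (1 + u) / (1 - u)³`. -/
def geomDerivTwo {K : Type*} [Field K] (u : K) : K := u * (1 + u) / (1 - u) ^ 3

/-- The coefficient of `q ^ n` in `℘' / (2πi)³` at a constant argument. -/
def derivCoeff {K : Type*} [Field K] (z : K) (n : ℕ) : K :=
  if n = 0 then geomDerivTwo z else ∑ d ∈ n.divisors, (d : K) ^ 2 * (z ^ d - (z ^ d)⁻¹)

theorem hasDerivAt_ee_real (x : ℝ) :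
    HasDerivAt (fun w : ℝ => ee (w : ℂ)) (2 * π * Complex.I * ee (x : ℂ)) x := by
  have h : HasDerivAt (fun w : ℂ => ee w) (ee (x : ℂ) * (2 * π * Complex.I)) (x : ℂ) := by
    simpa [ee] using ((hasDerivAt_id (x : ℂ)).const_mul (2 * π * Complex.I)).cexp
  have h2 := h.comp_ofReal
  rwa [mul_comm] at h2

theorem hasDerivAt_geomDeriv_ee {x : ℝ} (hx : ee (x : ℂ) ≠ 1) :
    HasDerivAt (fun w : ℝ => geomDeriv (ee (w : ℂ)))
      (2 * π * Complex.I * geomDerivTwo (ee (x : ℂ))) x := by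
  have h1 : (1 : ℂ) - ee (x : ℂ) ≠ 0 := sub_ne_zero.mpr (Ne.symm hx)
  have h := (hasDerivAt_ee_real x).div (((hasDerivAt_ee_real x).const_sub 1).pow 2)
    (pow_ne_zero 2 h1)
  convert! h using 1
  · rw [geomDerivTwo]
    simp only [Pi.pow_apply]
    field_simp
    ring

theorem norm_ee_real (x : ℝ) : ‖ee (x : ℂ)‖ = 1 := by rw [norm_ee]; simp

theorem real_notMem (τ : ℍ) {x : ℝ} (hx : x ∈ Set.Ioo (0 : ℝ) 1) :
    (x : ℂ) ∉ (tauPair τ).lattice ∧ ∀ n : ℤ, (x : ℂ) ≠ n := by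
  have hne : ∀ n : ℤ, (x : ℂ) ≠ n := by
    intro n h
    have h1 : x = (n : ℝ) := by exact_mod_cast h
    have h2 : (0 : ℤ) < n := by exact_mod_cast h1 ▸ hx.1
    have h3 : n < (1 : ℤ) := by exact_mod_cast h1 ▸ hx.2
    omega
  refine ⟨fun h => ?_, hne⟩
  obtain ⟨m, n, h⟩ := mem_tauPair.mp h
  rcases eq_or_ne m 0 with rfl | hm
  · exact hne n (by simpa using h.symm)
  · have h1 := congrArg Complex.im h
    simp only [add_im, mul_im, intCast_re, intCast_im, zero_mul, add_zero, ofReal_im] at h1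
    rcases mul_eq_zero.mp h1 with h2 | h2
    · exact hm (by exact_mod_cast h2)
    · exact τ.im_pos.ne' h2

/-- **The series of `℘'` at a real argument.** -/
theorem hasSum_wpD (τ : ℍ) {x : ℝ} (hx : x ∈ Set.Ioo (0 : ℝ) 1) :
    HasSum (fun n : ℕ => derivCoeff (ee (x : ℂ)) n • qp 1 τ ^ n) (wpD x τ) := by
  set q := qp 1 τ
  have hq : ‖q‖ < 1 := norm_qp_lt_one 1 τ
  set c : ℂ := 2 * π * Complex.I
  have hc : c ≠ 0 := two_pi_I_ne_zero
  let g : ℕ → ℝ → ℂ := fun n w => tailCoeff (ee (w : ℂ)) (n + 1) * q ^ (n + 1)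
  let g' : ℕ → ℝ → ℂ := fun n w => c * derivCoeff (ee (w : ℂ)) (n + 1) * q ^ (n + 1)
  let u : ℕ → ℝ := fun n => ‖c‖ * 2 * (((n + 1 : ℕ) : ℝ) ^ 3 * ‖q‖ ^ (n + 1))
  have hu : Summable u := by
    refine Summable.mul_left _ ?_
    exact (summable_nat_add_iff (f := fun n : ℕ => (n : ℝ) ^ 3 * ‖q‖ ^ n) 1).mpr
      (summable_pow_mul_geometric_of_norm_lt_one 3 (by simpa using hq))
  have hg : ∀ n w, HasDerivAt (g n) (g' n w) w := by
    intro n w
    refine HasDerivAt.mul_const ?_ _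
    simp only [tailCoeff, derivCoeff, if_neg (Nat.succ_ne_zero n), Finset.mul_sum]
    refine HasDerivAt.fun_sum fun d hd => ?_
    have hd0 : d ≠ 0 := (Nat.pos_of_mem_divisors hd).ne'
    have hp := (hasDerivAt_ee_real w).pow d
    have h := ((hp.add (hp.inv (pow_ne_zero _ (ee_ne_zero _)))).sub_const 2).const_mul (d : ℂ)
    convert! h using 1
    · simp only [Pi.pow_apply]
      obtain ⟨e, rfl⟩ := Nat.exists_eq_succ_of_ne_zero hd0
      have := ee_ne_zero (w : ℂ)
      simp only [Nat.succ_eq_add_one, add_tsub_cancel_right, Nat.cast_add, Nat.cast_one]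
      field_simp
      ring
  have hg' : ∀ n w, ‖g' n w‖ ≤ u n := by
    intro n w
    simp only [g', u, norm_mul, norm_pow]
    rw [mul_assoc ‖c‖ 2, mul_assoc ‖c‖]
    refine mul_le_mul_of_nonneg_left ?_ (norm_nonneg _)
    rw [← mul_assoc 2]
    refine mul_le_mul_of_nonneg_right ?_ (pow_nonneg (norm_nonneg _) _)
    simp only [derivCoeff, if_neg (Nat.succ_ne_zero n)]
    refine (norm_sum_le _ _).trans ?_
    have hterm : ∀ d ∈ (n + 1).divisors,
        ‖(d : ℂ) ^ 2 * (ee (w : ℂ) ^ d - (ee (w : ℂ) ^ d)⁻¹)‖ ≤ 2 * ((n + 1 : ℕ) : ℝ) ^ 2 := by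
      intro d hd
      rw [norm_mul, norm_pow, Complex.norm_natCast, mul_comm 2]
      refine mul_le_mul ?_ ?_ (norm_nonneg _) (by positivity)
      · gcongr
        exact_mod_cast Nat.divisor_le hd
      · refine (norm_sub_le _ _).trans ?_
        rw [norm_inv, norm_pow, norm_ee_real, one_pow, inv_one]
        norm_num
    refine (Finset.sum_le_sum hterm).trans ?_
    rw [Finset.sum_const, nsmul_eq_mul, pow_succ _ 2]
    have hcard : ((n + 1).divisors.card : ℝ) ≤ ((n + 1 : ℕ) : ℝ) := by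
      exact_mod_cast Nat.card_divisors_le_self (n + 1)
    calc ((n + 1).divisors.card : ℝ) * (2 * ((n + 1 : ℕ) : ℝ) ^ 2)
        ≤ ((n + 1 : ℕ) : ℝ) * (2 * ((n + 1 : ℕ) : ℝ) ^ 2) :=
          mul_le_mul_of_nonneg_right hcard (by positivity)
      _ = _ := by ring
  have hsum : ∀ w ∈ Set.Ioo (0 : ℝ) 1,
      HasSum (fun n => g n w) (wpN (w : ℂ) τ - 1 / 12 - geomDeriv (ee (w : ℂ))) := by
    intro w hw
    have h := hasSum_tail τ (real_notMem τ hw).2
    rw [← hasSum_nat_add_iff' 1] at h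
    simpa [g, tailCoeff, smul_eq_mul] using h
  have hD := hasDerivAt_tsum_of_isPreconnected hu isOpen_Ioo isPreconnected_Ioo
    (fun n w _ => hg n w) (fun n w _ => hg' n w) hx (hsum x hx).summable hx
  have hx1 : ee (x : ℂ) ≠ 1 := fun h => by
    obtain ⟨n, hn⟩ := ee_eq_one_iff.mp h
    exact (real_notMem τ hx).2 n hn
  have hP : HasDerivAt (fun w : ℝ => wpN (w : ℂ) τ - 1 / 12 - geomDeriv (ee (w : ℂ)))
      (c * wpD x τ - c * geomDerivTwo (ee (x : ℂ))) x := by
    have h := ((hasDerivAt_weierstrassP (tauPair τ) (real_notMem τ hx).1).div_const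
      scaleC).comp_ofReal
    refine (?_ : HasDerivAt (fun w : ℝ => wpN (w : ℂ) τ - 1 / 12) (c * wpD x τ) x).sub
      (hasDerivAt_geomDeriv_ee hx1)
    convert! h.sub_const (1 / 12) using 1
    rw [wpD]
    have := scaleC_ne_zero
    show c * (_ / (scaleC * c)) = _
    field_simp
  have hev : (fun w : ℝ => ∑' n, g n w) =ᶠ[𝓝 x]
      fun w => wpN (w : ℂ) τ - 1 / 12 - geomDeriv (ee (w : ℂ)) := by
    filter_upwards [isOpen_Ioo.mem_nhds hx] with w hw using (hsum w hw).tsum_eq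
  have heq := (hD.congr_of_eventuallyEq hev.symm).unique hP
  have hs' : Summable fun n => g' n x := Summable.of_norm_bounded hu fun n => hg' n x
  have h2 := (hs'.hasSum.mul_left c⁻¹)
  rw [heq, ← mul_sub, inv_mul_cancel_left₀ hc] at h2
  rw [← hasSum_nat_add_iff' 1]
  simp only [Finset.sum_range_one, pow_zero, smul_eq_mul, mul_one]
  rw [derivCoeff, if_pos rfl]
  refine h2.congr_fun fun n => ?_
  show _ = c⁻¹ * (c * _ * _)
  field_simp

theorem wpD_add_lattice (z : ℂ) (τ : ℍ) (m n : ℤ) :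
    wpD (z + ((m : ℂ) * τ + n)) τ = wpD z τ := by
  rw [wpD, wpD]
  congr 1
  exact PeriodPair.derivWeierstrassP_add_coe (tauPair τ) z ⟨_, mem_tauPair.mpr ⟨m, n, rfl⟩⟩

theorem wpD_smul (γ : SL(2, ℤ)) (τ : ℍ) (z : ℂ) :
    wpD (z / UpperHalfPlane.denom (γ : GL (Fin 2) ℝ) τ) (γ • τ) =
      UpperHalfPlane.denom (γ : GL (Fin 2) ℝ) τ ^ 3 * wpD z τ := by
  set c := UpperHalfPlane.denom (γ : GL (Fin 2) ℝ) (τ : ℂ)
  have hc0 : c ≠ 0 := UpperHalfPlane.denom_ne_zero _ τ
  have h : (fun w : ℂ => PeriodPair.weierstrassP (tauPair (γ • τ)) (c⁻¹ * w)) =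
      fun w => c ^ 2 * PeriodPair.weierstrassP (tauPair τ) w := by
    funext w
    have h := wpN_smul γ τ w
    simp only [wpN] at h
    have := scaleC_ne_zero
    rw [inv_mul_eq_div]
    field_simp at h
    linear_combination h
  have h' := congrArg (fun f => deriv f z) h
  rw [deriv_comp_mul_left, PeriodPair.deriv_weierstrassP, deriv_const_mul_field,
    PeriodPair.deriv_weierstrassP, smul_eq_mul, inv_mul_eq_div, inv_mul_eq_div] at h'
  rw [wpD, wpD]
  rw [div_eq_iff hc0] at h'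
  rw [h']
  field_simp

variable {p : ℕ} [Fact p.Prime]

theorem wpD_intArg {v : ZMod p × ZMod p} {a b : ℤ} (ha : (a : ZMod p) = v.1)
    (hb : (b : ZMod p) = v.2) (τ : ℍ) :
    wpD (((a : ℂ) * τ + b) / p) τ = wpD (zArg v τ) τ := by
  obtain ⟨m, rfl⟩ := exists_sub_val a ha
  obtain ⟨n, rfl⟩ := exists_sub_val b hb
  rw [← wpD_add_lattice (zArg v τ) τ m n]
  congr 1
  have := natCast_p_ne_zero (p := p)
  rw [zArg]
  push_cast
  field_simp
  ring

/-- The indicator of a class modulo `p`. -/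
def classCoeff (v : ZMod p × ZMod p) (w : Fin 2 → ℤ) : ℂ :=
  if ((w 0 : ZMod p), (w 1 : ZMod p)) = v then 1 else 0

theorem coeffBound_classCoeff (v : ZMod p × ZMod p) : XHLite.CoeffBound (classCoeff v) :=
    fun w => by
  rw [classCoeff]; split_ifs <;> simp

/-- `℘'` at a division point is an Eisenstein series of weight three. -/
theorem wpD_zArg_eq (v : ZMod p × ZMod p) (τ : ℍ) :
    wpD (zArg v τ) τ =
      (-2 * (p : ℂ) ^ 3 / (scaleC * (2 * π * Complex.I))) * XHLite.eisC 3 (classCoeff v) τ := by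
  have hp := natCast_p_ne_zero (p := p)
  have hp' : (p : ℤ) ≠ 0 := Int.natCast_ne_zero.mpr (Fact.out : p.Prime).ne_zero
  let e : ℤ × ℤ → (Fin 2 → ℤ) := fun x => ![(v.1.val : ℤ) - p * x.1, (v.2.val : ℤ) - p * x.2]
  have he : Function.Injective e := fun x y h => by
    have h0 := congrFun h 0
    have h1 := congrFun h 1
    simp only [e, Matrix.cons_val_zero, Matrix.cons_val_one, sub_right_inj] at h0 h1
    exact Prod.ext (mul_left_cancel₀ hp' h0) (mul_left_cancel₀ hp' h1)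
  have hsupp : Function.support (fun w => classCoeff v w * eisSummand 3 w τ) ⊆ Set.range e := by
    intro w hw
    have hc : ((w 0 : ZMod p), (w 1 : ZMod p)) = v := by
      by_contra h
      simp [classCoeff, h] at hw
    obtain ⟨m, hm⟩ := exists_sub_val (w 0) (congrArg Prod.fst hc)
    obtain ⟨n, hn⟩ := exists_sub_val (w 1) (congrArg Prod.snd hc)
    refine ⟨(-m, -n), funext fun i => ?_⟩
    fin_cases i <;> simp [e, hm, hn]
  have hval : ∀ x, classCoeff v (e x) = 1 := fun x => by simp [classCoeff, e]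
  have hrw : XHLite.eisC 3 (classCoeff v) τ =
      ∑' x : ℤ × ℤ, eisSummand 3 (e x) τ := by
    rw [XHLite.eisC, ← he.tsum_eq (by exact_mod_cast hsupp)]
    exact tsum_congr fun x => by rw [hval, one_mul]; norm_num
  rw [hrw, wpD, PeriodPair.derivWeierstrassP,
    ← ((tauPair τ).latticeEquivProd.toEquiv.symm).tsum_eq, ← tsum_mul_left, neg_div,
    ← tsum_div_const, ← tsum_neg]
  refine tsum_congr fun x => ?_
  show -((2 / (zArg v τ - ((tauPair τ).latticeEquivProd.symm x).1) ^ 3) / _) = _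
  rw [PeriodPair.latticeEquiv_symm_apply]
  simp only [eisSummand, e, tauPair, Matrix.cons_val_zero, Matrix.cons_val_one, zpow_neg]
  rw [show zArg v τ - ((x.1 : ℂ) * (τ : ℂ) + (x.2 : ℂ) * 1) =
      ((((v.1.val : ℤ) - p * x.1 : ℤ) : ℂ) * τ + (((v.2.val : ℤ) - p * x.2 : ℤ) : ℂ)) / p by
    rw [zArg]; push_cast; field_simp; ring]
  rw [div_pow, zpow_ofNat]
  field_simp

theorem wpD_mdiff (v : ZMod p × ZMod p) : MDiff (fun τ : ℍ => wpD (zArg v τ) τ) := by
  have h := UpperHalfPlane.mdifferentiable_iff.mp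
    (XHLite.eisC_mdiff (k := 3) le_rfl (coeffBound_classCoeff v))
  rw [funext (wpD_zArg_eq v)]
  exact UpperHalfPlane.mdifferentiable_iff.mpr (h.const_mul _)

theorem val_div_mem_Ioo {k : ZMod p} (hk : k ≠ 0) : (k.val : ℝ) / p ∈ Set.Ioo (0 : ℝ) 1 := by
  have hp : (0 : ℝ) < p := Nat.cast_pos.mpr (Fact.out : p.Prime).pos
  refine ⟨div_pos
    (Nat.cast_pos.mpr (Nat.pos_of_ne_zero fun h => hk ((ZMod.val_eq_zero k).mp h))) hp,
    (div_lt_one hp).mpr ?_⟩
  exact_mod_cast ZMod.val_lt k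

theorem hasSum_wpD_zArg {k : ZMod p} (hk : k ≠ 0) (τ : ℍ) :
    HasSum (fun n : ℕ => derivCoeff (zetaC p ^ k.val) n • qp 1 τ ^ n) (wpD (zArg (0, k) τ) τ) := by
  rw [zArg_zero_fst, ← ee_val_div]
  exact hasSum_wpD τ (val_div_mem_Ioo hk)

end Fermat.Agent.Row48.WeightOne
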