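import Mathlib.NumberTheory.ModularForms.BoundedAtCusp
import Fermat.Agent.Row48.WeightOne.WpDeriv

/-!
# The chord slope at two division points: a form of weight one
-/

set_option autoImplicit false

noncomputable section

open Filter Topology UpperHalfPlane CongruenceSubgroup
open scoped Real Manifold MatrixGroups ModularForm

namespace Fermat.Agent.Row48.WeightOne

open Mazur.Moduli X0Analytic

variable {p : ℕ} [Fact p.Prime]

/-- Two vectors whose division points have distinct `℘`. -/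
structure Admissible (v w : ZMod p × ZMod p) : Prop where
  left : v ≠ 0
  right : w ≠ 0
  ne : v ≠ w
  sum : v + w ≠ 0

/-- The argument `(a τ + b) / p` at integers. -/
def intArg (a b : ℤ) (τ : ℂ) : ℂ := ((a : ℂ) * τ + b) / p

theorem zArg_eq_intArg (v : ZMod p × ZMod p) (τ : ℂ) :
    zArg v τ = intArg (p := p) v.1.val v.2.val τ := by
  simp [zArg, intArg]

theorem intArg_notMem {a b : ℤ} {τ : ℍ} (h : ((a : ZMod p), (b : ZMod p)) ≠ 0) :
    intArg (p := p) a b τ ∉ (tauPair τ).lattice := by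
  intro hmem
  obtain ⟨m, hm⟩ := exists_sub_val a (x := (a : ZMod p)) rfl
  obtain ⟨n, hn⟩ := exists_sub_val b (x := (b : ZMod p)) rfl
  refine zArg_notMem h τ ?_
  have e : intArg (p := p) a b τ = zArg ((a : ZMod p), (b : ZMod p)) τ + ((m : ℂ) * τ + n) := by
    have := natCast_p_ne_zero (p := p)
    rw [intArg, zArg]
    conv_lhs => rw [hm, hn]
    push_cast
    field_simp
    ring
  rw [e] at hmem
  exact ((tauPair τ).lattice.add_mem_iff_left (mem_tauPair.mpr ⟨m, n, rfl⟩)).mp hmem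

theorem wp_zArg_ne {v w : ZMod p × ZMod p} (h : Admissible v w) (τ : ℍ) :
    PeriodPair.weierstrassP (tauPair τ) (zArg v τ) ≠
      PeriodPair.weierstrassP (tauPair τ) (zArg w τ) := by
  intro he
  set L := tauPair τ
  have hv := zArg_notMem h.left τ
  have hw := zArg_notMem h.right τ
  have h2 : (L.derivWeierstrassP (zArg v τ) - L.derivWeierstrassP (zArg w τ)) *
      (L.derivWeierstrassP (zArg v τ) + L.derivWeierstrassP (zArg w τ)) = 0 := by
    linear_combination L.derivWeierstrassP_sq _ hv - L.derivWeierstrassP_sq _ hw +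
      (4 * (L.weierstrassP (zArg v τ) ^ 2 + L.weierstrassP (zArg v τ) * L.weierstrassP (zArg w τ) +
        L.weierstrassP (zArg w τ) ^ 2) - L.g₂) * he
  rw [zArg_eq_intArg, zArg_eq_intArg] at *
  rcases mul_eq_zero.mp h2 with h3 | h3
  · have hpt : wpHom L (intArg (p := p) v.1.val v.2.val τ) =
        wpHom L (intArg (p := p) w.1.val w.2.val τ) := by
      show wpPoint L _ = wpPoint L _
      rw [wpPoint_of_notMem L hv, wpPoint_of_notMem L hw, WeierstrassCurve.Affine.Point.some.injEq]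
      exact ⟨he, by rw [sub_eq_zero.mp h3]⟩
    rw [wpHom_eq_iff] at hpt
    refine intArg_notMem (p := p) (a := (v.1.val : ℤ) - w.1.val) (b := (v.2.val : ℤ) - w.2.val)
      (τ := τ) ?_ ?_
    · intro hz
      simp only [Prod.mk_eq_zero, Int.cast_sub, Int.cast_natCast, ZMod.natCast_zmod_val,
        sub_eq_zero] at hz
      exact h.ne (Prod.ext hz.1 hz.2)
    · convert hpt using 1
      rw [intArg, intArg, intArg]
      push_cast
      ring
  · have hw' : -intArg (p := p) w.1.val w.2.val τ ∉ L.lattice := fun hm => hw (neg_mem_iff.mp hm)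
    have hpt : wpHom L (intArg (p := p) v.1.val v.2.val τ) =
        wpHom L (-intArg (p := p) w.1.val w.2.val τ) := by
      show wpPoint L _ = wpPoint L _
      rw [wpPoint_of_notMem L hv, wpPoint_of_notMem L hw', WeierstrassCurve.Affine.Point.some.injEq]
      exact ⟨by rw [L.weierstrassP_neg, he],
        by rw [L.derivWeierstrassP_neg, eq_neg_of_add_eq_zero_left h3]⟩
    rw [wpHom_eq_iff] at hpt
    refine intArg_notMem (p := p) (a := (v.1.val : ℤ) + w.1.val) (b := (v.2.val : ℤ) + w.2.val)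
      (τ := τ) ?_ ?_
    · intro hz
      simp only [Prod.mk_eq_zero, Int.cast_add, Int.cast_natCast, ZMod.natCast_zmod_val] at hz
      exact h.sum (Prod.ext hz.1 hz.2)
    · convert hpt using 1
      rw [intArg, intArg, intArg]
      push_cast
      ring

theorem wpN_sub_ne {v w : ZMod p × ZMod p} (h : Admissible v w) (τ : ℍ) :
    wpN (zArg v τ) τ - wpN (zArg w τ) τ ≠ 0 := by
  rw [sub_ne_zero, wpN, wpN]
  exact fun he => wp_zArg_ne h τ (by
    field_simp [scaleC_ne_zero] at he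
    exact he)

/-- The normalised chord slope at two division points. -/
def slope (v w : ZMod p × ZMod p) (τ : ℍ) : ℂ :=
  (wpD (zArg v τ) τ - wpD (zArg w τ) τ) / (wpN (zArg v τ) τ - wpN (zArg w τ) τ)

/-- The square of the slope is a sum of three values of `℘`. -/
theorem slope_sq {v w : ZMod p × ZMod p} (h : Admissible v w) (τ : ℍ) :
    slope v w τ ^ 2 = 4 * (wpN (zArg (v + w) τ) τ + wpN (zArg v τ) τ + wpN (zArg w τ) τ) := by
  have he := (weierstrassP_add (tauPair τ) (zArg_notMem h.left τ) (zArg_notMem h.right τ)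
    (wp_zArg_ne h τ)).2
  have hs : wpN (zArg (v + w) τ) τ = wpN (zArg v τ + zArg w τ) τ := by
    rw [← wpN_intArg (v := v + w) (a := (v.1.val : ℤ) + w.1.val) (b := (v.2.val : ℤ) + w.2.val)
      (by simp) (by simp)]
    congr 1
    rw [zArg, zArg]
    push_cast
    ring
  rw [hs]
  simp only [slope, wpD, wpN]
  rw [he, chordX]
  have hd := sub_ne_zero.mpr (wp_zArg_ne h τ)
  have hc : (2 * (π : ℂ) * Complex.I) ≠ 0 := Complex.two_pi_I_ne_zero
  rw [show scaleC = (2 * (π : ℂ) * Complex.I) ^ 2 from rfl]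
  generalize 2 * (π : ℂ) * Complex.I = c at hc ⊢
  rw [← sub_div, ← sub_div]
  field_simp
  ring

theorem rowMul_add (v w : ZMod p × ZMod p) (γ : SL(2, ℤ)) :
    rowMul (v + w) γ = rowMul v γ + rowMul w γ := by
  simp only [rowMul, Prod.fst_add, Prod.snd_add, Prod.mk_add_mk]
  ext <;> simp <;> ring

theorem rowMul_eq_zero {v : ZMod p × ZMod p} {γ : SL(2, ℤ)} (h : rowMul v γ = 0) : v = 0 := by
  rw [← rowMul_one v, ← mul_inv_cancel γ, rowMul_mul, h]
  simp [rowMul]

theorem rowMul_inj {v w : ZMod p × ZMod p} {γ : SL(2, ℤ)} (h : rowMul v γ = rowMul w γ) :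
    v = w := by
  rw [← rowMul_one v, ← rowMul_one w, ← mul_inv_cancel γ, rowMul_mul, rowMul_mul, h]

theorem Admissible.rowMul {v w : ZMod p × ZMod p} (h : Admissible v w) (γ : SL(2, ℤ)) :
    Admissible (Mazur.Moduli.rowMul v γ) (Mazur.Moduli.rowMul w γ) where
  left h0 := h.left (rowMul_eq_zero h0)
  right h0 := h.right (rowMul_eq_zero h0)
  ne h0 := h.ne (rowMul_inj h0)
  sum h0 := h.sum (rowMul_eq_zero (by rwa [rowMul_add]))

theorem zArg_smul (v : ZMod p × ZMod p) (γ : SL(2, ℤ)) (τ : ℍ) :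
    ∃ a b : ℤ, (a : ZMod p) = (rowMul v γ).1 ∧ (b : ZMod p) = (rowMul v γ).2 ∧
      zArg v (γ • τ : ℍ) =
        ((a : ℂ) * τ + b) / p / UpperHalfPlane.denom (γ : GL (Fin 2) ℝ) τ := by
  refine ⟨v.1.val * γ 0 0 + v.2.val * γ 1 0, v.1.val * γ 0 1 + v.2.val * γ 1 1,
    by simp [rowMul], by simp [rowMul], ?_⟩
  have hc0 : UpperHalfPlane.denom (γ : GL (Fin 2) ℝ) (τ : ℂ) ≠ 0 :=
    UpperHalfPlane.denom_ne_zero _ τ
  have hp := natCast_p_ne_zero (p := p)
  have hc' : UpperHalfPlane.denom (γ : GL (Fin 2) ℝ) (τ : ℂ) = (γ 1 0 : ℂ) * τ + (γ 1 1 : ℂ) := by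
    rw [ModularGroup.denom_apply]
  have hsmul : ((γ • τ : ℍ) : ℂ) =
      ((γ 0 0 : ℂ) * τ + (γ 0 1 : ℂ)) / UpperHalfPlane.denom (γ : GL (Fin 2) ℝ) (τ : ℂ) := by
    rw [UpperHalfPlane.coe_specialLinearGroup_apply, ModularGroup.denom_apply]
    simp
  rw [zArg, hsmul]
  push_cast
  field_simp
  rw [hc']
  ring

theorem slope_smul (v w : ZMod p × ZMod p) (γ : SL(2, ℤ)) (τ : ℍ) :
    slope v w (γ • τ) =
      UpperHalfPlane.denom (γ : GL (Fin 2) ℝ) τ * slope (rowMul v γ) (rowMul w γ) τ := by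
  obtain ⟨a, b, ha, hb, h1⟩ := zArg_smul v γ τ
  obtain ⟨a', b', ha', hb', h1'⟩ := zArg_smul w γ τ
  simp only [slope, h1, h1', wpN_smul, wpD_smul, wpN_intArg ha hb, wpN_intArg ha' hb',
    wpD_intArg ha hb, wpD_intArg ha' hb', ← mul_sub]
  have hc0 : UpperHalfPlane.denom (γ : GL (Fin 2) ℝ) (τ : ℂ) ≠ 0 :=
    UpperHalfPlane.denom_ne_zero _ τ
  rw [show UpperHalfPlane.denom (γ : GL (Fin 2) ℝ) (τ : ℂ) ^ 3 =
    UpperHalfPlane.denom (γ : GL (Fin 2) ℝ) τ *
      UpperHalfPlane.denom (γ : GL (Fin 2) ℝ) τ ^ 2 by ring,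
    mul_assoc, mul_div_assoc, mul_div_mul_left _ _ (pow_ne_zero 2 hc0)]

theorem slope_slash (v w : ZMod p × ZMod p) (γ : SL(2, ℤ)) :
    slope v w ∣[(1 : ℤ)] γ = slope (rowMul v γ) (rowMul w γ) := by
  funext τ
  rw [ModularForm.SL_slash_apply, slope_smul, zpow_neg, zpow_one, mul_comm, ← mul_assoc,
    inv_mul_cancel₀ (UpperHalfPlane.denom_ne_zero _ τ), one_mul]

theorem slope_mdiff {v w : ZMod p × ZMod p} (h : Admissible v w) : MDiff (slope v w) := by
  have hn := fun v : ZMod p × ZMod p => UpperHalfPlane.mdifferentiable_iff.mp (wpN_mdiff' v)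
  have hd := fun v : ZMod p × ZMod p => UpperHalfPlane.mdifferentiable_iff.mp (wpD_mdiff v)
  exact UpperHalfPlane.mdifferentiable_iff.mpr
    (((hd v).sub (hd w)).div ((hn v).sub (hn w)) fun z hz => wpN_sub_ne h _)

theorem slope_bdd {v w : ZMod p × ZMod p} (h : Admissible v w) :
    IsBoundedAtImInfty (slope v w) := by
  have hb : IsBoundedAtImInfty
      (fun τ : ℍ => 4 * (wpN (zArg (v + w) τ) τ + wpN (zArg v τ) τ + wpN (zArg w τ) τ)) := by
    have h3 := ((((tendsto_wpN h.sum).add (tendsto_wpN h.left)).add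
      (tendsto_wpN h.right)).const_mul 4)
    exact h3.isBigO_one ℝ
  rw [UpperHalfPlane.isBoundedAtImInfty_iff] at hb ⊢
  obtain ⟨M, A, hMA⟩ := hb
  refine ⟨M + 1, A, fun τ hτ => ?_⟩
  have h2 := hMA τ hτ
  rw [← slope_sq h, norm_pow] at h2
  nlinarith [norm_nonneg (slope v w τ)]

theorem rowMul_of_mem_Gamma0 {γ : SL(2, ℤ)} (hγ : γ ∈ Gamma0 p) (k : ZMod p) :
    rowMul ((0 : ZMod p), k) γ = (0, k * (γ 1 1 : ℤ)) := by
  simp [rowMul, Gamma0_mem.mp hγ]

/-- **The weight one form of the division points `k / p`, `m / p`.** -/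
def slopeForm (k m : ZMod p) (h : Admissible ((0 : ZMod p), k) (0, m)) :
    ModularForm (Gamma1 p) 1 where
  toFun := slope (0, k) (0, m)
  slash_action_eq' := by
    rintro _ ⟨g, hg, rfl⟩
    obtain ⟨-, h11, h10⟩ := (Gamma1_mem p g).mp hg
    show slope (0, k) (0, m) ∣[(1 : ℤ)] g = _
    rw [slope_slash, rowMul_of_mem_Gamma0 (Gamma0_mem.mpr h10),
      rowMul_of_mem_Gamma0 (Gamma0_mem.mpr h10), h11, mul_one, mul_one]
  holo' := slope_mdiff h
  bdd_at_cusps' {c} hc := by
    rw [Subgroup.IsArithmetic.isCusp_iff_isCusp_SL2Z] at hc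
    rw [OnePoint.isBoundedAt_iff_forall_SL2Z hc]
    intro g _
    rw [slope_slash]
    exact slope_bdd (h.rowMul g)

theorem coe_slopeForm (k m : ZMod p) (h : Admissible ((0 : ZMod p), k) (0, m)) :
    ⇑(slopeForm k m h) = slope (0, k) (0, m) := rfl

end Fermat.Agent.Row48.WeightOne
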