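import Mathlib.RingTheory.Valuation.ValuationSubring
import Mathlib.Tactic.NormNum.Prime
import Fermat.Agent.Row48.WeightOne.Slope

/-!
# The weight one slope is congruent to a constant modulo a place over the level
-/

set_option autoImplicit false

noncomputable section

open Filter Topology UpperHalfPlane
open scoped Real Manifold MatrixGroups

namespace Fermat.Agent.Row48.WeightOne

open Mazur.Moduli X0Analytic

variable {p : ℕ} [Fact p.Prime] (A : ValuationSubring ℂ)

/-- The place lies over `p`. -/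
def Over (p : ℕ) (A : ValuationSubring ℂ) : Prop := (p : ℂ) ∈ A.nonunits

variable {A}

theorem zetaPow_ne_one {k : ZMod p} (hk : k ≠ 0) : zetaC p ^ k.val ≠ 1 := by
  rw [← ee_val_div, Ne, ee_eq_one_iff]
  exact fun ⟨n, hn⟩ => val_div_ne_intCast hk n hn

theorem zetaPow_pow (k : ZMod p) : (zetaC p ^ k.val) ^ p = 1 := by
  rw [← pow_mul, mul_comm, pow_mul, zetaC_pow, one_pow]

theorem zetaPow_mul (k : ZMod p) (n : ℕ) :
    zetaC p ^ ((n : ZMod p) * k).val = (zetaC p ^ k.val) ^ n := by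
  rw [← pow_mul, pow_eq_pow_mod (k.val * n) (zetaC_pow p), ZMod.val_mul, ZMod.val_natCast,
    Nat.mod_mul_mod, mul_comm]

/-- Numerator of the constant, without the pole. -/
def cNum {R : Type*} [CommRing R] (z : R) : R := (1 + z) ^ 4 - z - z ^ 3

/-- Denominator of the constant, without the pole. -/
def cDen {R : Type*} [CommRing R] (z : R) : R := (1 + z) * (1 + z + z ^ 2)

/-- The constant term of the slope at `z`, `z²`. -/
def slopeConst (z : ℂ) : ℂ :=
  (geomDerivTwo z - geomDerivTwo (z ^ 2)) / (geomDeriv z - geomDeriv (z ^ 2))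

section Valuation

variable (hA : Over p A)
include hA

omit [Fact p.Prime] in
theorem residue_natCast_p : IsLocalRing.residue A (p : A) = 0 := by
  rw [IsLocalRing.residue_eq_zero_iff, ValuationSubring.valuation_lt_one_iff]
  exact (ValuationSubring.mem_nonunits_iff A).mp hA

theorem residue_natCast_ne {n : ℕ} (hn : ¬ p ∣ n) : IsLocalRing.residue A (n : A) ≠ 0 := by
  intro h
  have hco : Nat.Coprime p n := (Fact.out : p.Prime).coprime_iff_not_dvd.mpr hn
  obtain ⟨a, b, hab⟩ : IsCoprime (p : ℤ) (n : ℤ) :=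
    Int.isCoprime_iff_nat_coprime.mpr (by simpa using hco)
  have h1 := congrArg (fun x : ℤ => IsLocalRing.residue A (x : A)) hab
  simp only [Int.cast_add, Int.cast_mul, Int.cast_natCast, map_add, map_mul,
    residue_natCast_p hA, h, mul_zero, add_zero, Int.cast_one, map_one] at h1
  exact zero_ne_one h1

theorem charP_residue : CharP (IsLocalRing.ResidueField A) p := by
  refine (CharP.charP_iff_prime_eq_zero Fact.out).mpr ?_
  rw [← map_natCast (IsLocalRing.residue A)]
  exact residue_natCast_p hA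

/-- A `p`-th root of unity is one modulo `m`. -/
theorem residue_root_eq_one {z : A} (hz : z ^ p = 1) : IsLocalRing.residue A z = 1 := by
  have := charP_residue hA
  have h := congrArg (IsLocalRing.residue A) hz
  rw [map_pow, map_one] at h
  have h' : (IsLocalRing.residue A z - 1) ^ p = 0 := by rw [sub_pow_char, h, one_pow, sub_self]
  exact sub_eq_zero.mp (eq_zero_of_pow_eq_zero h')

omit [Fact p.Prime] hA in
theorem zetaPow_mem {z : ℂ} (hp : p ≠ 0) (hz : z ^ p = 1) : z ∈ A := by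
  rw [← ValuationSubring.valuation_le_one_iff]
  have h := congrArg A.valuation hz
  rw [map_pow, map_one] at h
  exact ((pow_le_one_iff hp).mp h.le)

end Valuation

theorem inv_mem_of_residue_ne {x : A} (h : IsLocalRing.residue A x ≠ 0) :
    A.valuation (x : ℂ) = 1 := by
  refine le_antisymm (A.valuation_le_one x) (le_of_not_gt fun hlt => h ?_)
  rw [IsLocalRing.residue_eq_zero_iff, ValuationSubring.valuation_lt_one_iff]
  exact hlt

theorem valuation_lt_of_residue_eq {x : A} (h : IsLocalRing.residue A x = 0) :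
    A.valuation (x : ℂ) < 1 := by
  rwa [IsLocalRing.residue_eq_zero_iff, ValuationSubring.valuation_lt_one_iff] at h

section Constants

variable (hA : Over p A) (h2 : p ≠ 2) (h3 : p ≠ 3) (h7 : p ≠ 7) {z : ℂ} (hz : z ^ p = 1)
include hA hz

theorem valuation_one_sub_lt : A.valuation (1 - z) < 1 := by
  let zA : A := ⟨z, zetaPow_mem (Fact.out : p.Prime).ne_zero hz⟩
  have := residue_root_eq_one hA (z := zA) (Subtype.ext (by simpa [zA] using hz))
  exact valuation_lt_of_residue_eq (x := 1 - zA) (by simp [this])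

theorem valuation_self : A.valuation z = 1 := by
  let zA : A := ⟨z, zetaPow_mem (Fact.out : p.Prime).ne_zero hz⟩
  have := residue_root_eq_one hA (z := zA) (Subtype.ext (by simpa [zA] using hz))
  exact inv_mem_of_residue_ne (x := zA) (by simp [this])

include h2 h7 in
theorem valuation_cNum : A.valuation (cNum z) = 1 := by
  let zA : A := ⟨z, zetaPow_mem (Fact.out : p.Prime).ne_zero hz⟩
  have hr := residue_root_eq_one hA (z := zA) (Subtype.ext (by simpa [zA] using hz))
  have h : IsLocalRing.residue A (cNum zA) = IsLocalRing.residue A ((14 : ℕ) : A) := by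
    simp only [cNum, map_sub, map_pow, map_add, map_one, hr, map_natCast]
    norm_num
  have hnd : ¬ p ∣ 14 := fun h14 => by
    rcases (Nat.Prime.dvd_mul Fact.out).mp (show p ∣ 2 * 7 from h14) with h' | h'
    · exact h2 ((Nat.prime_dvd_prime_iff_eq Fact.out Nat.prime_two).mp h')
    · exact h7 ((Nat.prime_dvd_prime_iff_eq Fact.out (show Nat.Prime 7 by norm_num)).mp h')
  exact inv_mem_of_residue_ne (x := cNum zA) (h ▸ residue_natCast_ne hA hnd)

include h2 h3 in
theorem valuation_factors : A.valuation (1 + z) = 1 ∧ A.valuation (1 + z + z ^ 2) = 1 := by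
  let zA : A := ⟨z, zetaPow_mem (Fact.out : p.Prime).ne_zero hz⟩
  have hr := residue_root_eq_one hA (z := zA) (Subtype.ext (by simpa [zA] using hz))
  have hd : ∀ q : ℕ, q.Prime → p ≠ q → ¬ p ∣ q := fun q hq hne h =>
    hne ((Nat.prime_dvd_prime_iff_eq Fact.out hq).mp h)
  have e2 : IsLocalRing.residue A (1 + zA) = IsLocalRing.residue A ((2 : ℕ) : A) := by
    simp only [map_add, map_one, hr, map_natCast]; norm_num
  have e3 : IsLocalRing.residue A (1 + zA + zA ^ 2) = IsLocalRing.residue A ((3 : ℕ) : A) := by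
    simp only [map_add, map_one, map_pow, hr, map_natCast]; norm_num
  exact ⟨inv_mem_of_residue_ne (x := 1 + zA) (e2 ▸ residue_natCast_ne hA (hd 2 Nat.prime_two h2)),
    inv_mem_of_residue_ne (x := 1 + zA + zA ^ 2)
      (e3 ▸ residue_natCast_ne hA (hd 3 Nat.prime_three h3))⟩

end Constants

theorem constDiff_eq {z : ℂ} (h1 : 1 - z ≠ 0) (h2 : 1 + z ≠ 0) :
    geomDeriv z - geomDeriv (z ^ 2) = z * (1 + z + z ^ 2) / ((1 - z) ^ 2 * (1 + z) ^ 2) ∧
      geomDerivTwo z - geomDerivTwo (z ^ 2) = z * cNum z / ((1 - z) ^ 3 * (1 + z) ^ 3) := by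
  have h12 : 1 - z ^ 2 = (1 - z) * (1 + z) := by ring
  constructor
  · rw [geomDeriv, geomDeriv, h12]; field_simp; ring
  · rw [geomDerivTwo, geomDerivTwo, cNum, h12]; field_simp; ring

/-- The series of the denominator of the slope at `z`, `z²`. -/
def denCoeff (z : ℂ) (n : ℕ) : ℂ := tailCoeff z n - tailCoeff (z ^ 2) n

/-- The series of the numerator of the slope at `z`, `z²`. -/
def numCoeff (z : ℂ) (n : ℕ) : ℂ := derivCoeff z n - derivCoeff (z ^ 2) n

theorem coeff_mem (_hA : Over p A) {z : ℂ} (hz : z ^ p = 1) {n : ℕ} (hn : n ≠ 0) :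
    tailCoeff z n ∈ A ∧ derivCoeff z n ∈ A := by
  have hp := (Fact.out : p.Prime).ne_zero
  have hi : z⁻¹ ^ p = 1 := by rw [inv_pow, hz, inv_one]
  have hzA := zetaPow_mem (A := A) hp hz
  have hiA := zetaPow_mem (A := A) hp hi
  simp only [tailCoeff, derivCoeff, if_neg hn]
  refine ⟨sum_mem fun d _ => mul_mem (natCast_mem A d) (sub_mem (add_mem (pow_mem hzA d) ?_)
    (natCast_mem A 2)), sum_mem fun d _ => mul_mem (pow_mem (natCast_mem A d) 2)
    (sub_mem (pow_mem hzA d) ?_)⟩ <;> rw [← inv_pow] <;> exact pow_mem hiA d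

theorem coeff_sub_mem (hA : Over p A) {z : ℂ} (hz : z ^ p = 1) {n : ℕ} (hn : n ≠ 0) :
    A.valuation (denCoeff z n) ≤ 1 ∧ A.valuation (numCoeff z n) ≤ 1 := by
  have hz2 : (z ^ 2) ^ p = 1 := by rw [← pow_mul, mul_comm, pow_mul, hz, one_pow]
  rw [ValuationSubring.valuation_le_one_iff, ValuationSubring.valuation_le_one_iff]
  exact ⟨sub_mem (coeff_mem hA hz hn).1 (coeff_mem hA hz2 hn).1,
    sub_mem (coeff_mem hA hz hn).2 (coeff_mem hA hz2 hn).2⟩

/-- The division of two series congruent to their constants. -/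
theorem quotient_congr {F R0 R1 : ℕ → ℂ} (hR0 : ∀ n, 0 < n → A.valuation (R0 n) < 1)
    (hR1 : ∀ n, 0 < n → A.valuation (R1 n) < 1) (h00 : R0 0 = 1) (h10 : R1 0 = 1)
    (h : ∀ n, ∑ x ∈ Finset.HasAntidiagonal.antidiagonal n, F x.1 * R0 x.2 = R1 n) :
    F 0 = 1 ∧ ∀ n, 0 < n → A.valuation (F n) < 1 := by
  have h0 : F 0 = 1 := by
    have := h 0
    simpa [h00, h10] using this
  refine ⟨h0, fun n => ?_⟩
  induction n using Nat.strong_induction_on with
  | _ n ih =>
    intro hn
    have e := h n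
    rw [Finset.Nat.sum_antidiagonal_eq_sum_range_succ (fun i j => F i * R0 j),
      Finset.sum_range_succ, Nat.sub_self, h00, mul_one] at e
    rw [eq_sub_of_add_eq' e]
    refine Valuation.map_sub_lt A.valuation (hR1 n hn) ?_
    refine Valuation.map_sum_lt A.valuation one_ne_zero fun i hi => ?_
    rw [Finset.mem_range] at hi
    rw [map_mul]
    have hR := hR0 (n - i) (by omega)
    rcases Nat.eq_zero_or_pos i with rfl | hip
    · rwa [h0, map_one, one_mul]
    · exact mul_lt_one' (ih i hi hip) hR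

theorem twice_ne {k : ZMod p} (h2 : p ≠ 2) (h3 : p ≠ 3) (hk : k ≠ 0) :
    Admissible ((0 : ZMod p), k) (0, 2 * k) := by
  have hne : ∀ q : ℕ, q.Prime → p ≠ q → (q : ZMod p) ≠ 0 := fun q hq hpq h =>
    hpq ((Nat.prime_dvd_prime_iff_eq Fact.out hq).mp ((ZMod.natCast_eq_zero_iff q p).mp h))
  have e2 : (2 : ZMod p) ≠ 0 := by simpa using hne 2 Nat.prime_two h2
  have e3 : (3 : ZMod p) ≠ 0 := by simpa using hne 3 Nat.prime_three h3
  refine ⟨fun h => hk (congrArg Prod.snd h), fun h => mul_ne_zero e2 hk (congrArg Prod.snd h),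
    fun h => hk ?_, fun h => mul_ne_zero e3 hk ?_⟩
  · have := congrArg Prod.snd h
    linear_combination -this
  · have := congrArg Prod.snd h
    simp only [Prod.snd_add, Prod.snd_zero] at this
    linear_combination this

/-- The slope at `k / p`, `2 k / p`. -/
def slopeTwo (k : ZMod p) : ℍ → ℂ := slope ((0 : ZMod p), k) (0, 2 * k)

theorem slopeTwo_isPer (k : ZMod p) : IsPer 1 (slopeTwo k) := fun τ => by
  have hT : ((1 : ℕ) : ℝ) +ᵥ τ = ModularGroup.T • τ := by
    rw [UpperHalfPlane.modular_T_smul, Nat.cast_one]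
  rw [hT, slopeTwo, slope_smul]
  simp [rowMul, ModularGroup.denom_apply, ModularGroup.coe_T]

theorem hasSum_den {k : ZMod p} (h2 : p ≠ 2) (h3 : p ≠ 3) (hk : k ≠ 0) (τ : ℍ) :
    HasSum (fun n => denCoeff (zetaC p ^ k.val) n • qp 1 τ ^ n)
      (wpN (zArg ((0 : ZMod p), k) τ) τ - wpN (zArg ((0 : ZMod p), 2 * k) τ) τ) := by
  have hk2 : 2 * k ≠ 0 := fun h => (twice_ne h2 h3 hk).right (by rw [h]; rfl)
  refine ((hasSum_wp hk τ).sub (hasSum_wp hk2 τ)).congr_fun fun n => ?_
  rw [← sub_smul, wpPS, wpPS, map_add, map_add, tailPS, tailPS, PowerSeries.coeff_mk,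
    PowerSeries.coeff_mk, denCoeff, ← zetaPow_mul k 2, Nat.cast_ofNat, add_sub_add_left_eq_sub]

theorem hasSum_num {k : ZMod p} (h2 : p ≠ 2) (h3 : p ≠ 3) (hk : k ≠ 0) (τ : ℍ) :
    HasSum (fun n => numCoeff (zetaC p ^ k.val) n • qp 1 τ ^ n)
      (wpD (zArg ((0 : ZMod p), k) τ) τ - wpD (zArg ((0 : ZMod p), 2 * k) τ) τ) := by
  have hk2 : 2 * k ≠ 0 := fun h => (twice_ne h2 h3 hk).right (by rw [h]; rfl)
  refine ((hasSum_wpD_zArg hk τ).sub (hasSum_wpD_zArg hk2 τ)).congr_fun fun n => ?_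
  rw [← sub_smul, numCoeff, ← zetaPow_mul k 2, Nat.cast_ofNat]

theorem series_facts {g : ℍ → ℂ} (hm : MDiff g) {c : ℕ → ℂ}
    (hs : ∀ τ : ℍ, HasSum (fun n => c n • qp 1 τ ^ n) (g τ)) :
    AnalyticAt ℂ (cuspFunction 1 g) 0 ∧ ∀ n, (qExpansion 1 g).coeff n = c n := by
  have hper : IsPer 1 g := fun τ => by
    refine (hs ((((1 : ℕ) : ℝ) +ᵥ τ : ℍ))).unique ?_
    simp only [qp_vadd]
    exact hs τ
  have hb : IsBoundedAtImInfty g := isBoundedAtImInfty_of_hasSum_qExpansion (hpos 1) hs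
  have h1 := analyticAt_cuspFunction_zero (hpos 1) hper.periodic_comp_ofComplex hm hb
  have h2 := fun n => qExpansion_coeff_eq_of_hasSum hm hper hs n
  simp only [Nat.cast_one] at h1 h2
  exact ⟨h1, h2⟩

/-- **The slope divided by its constant is one modulo `m`.** -/
theorem slopeTwo_congr (hA : Over p A) (h2 : p ≠ 2) (h3 : p ≠ 3) (h7 : p ≠ 7) {k : ZMod p}
    (hk : k ≠ 0) : slopeConst (zetaC p ^ k.val) ≠ 0 ∧
      (qExpansion 1 (slopeTwo k)).coeff 0 = slopeConst (zetaC p ^ k.val) ∧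
      ∀ n, 0 < n →
        A.valuation ((qExpansion 1 (slopeTwo k)).coeff n / slopeConst (zetaC p ^ k.val)) < 1 := by
  obtain ⟨z, hzdef⟩ : ∃ z, z = zetaC p ^ k.val := ⟨_, rfl⟩
  rw [← hzdef]
  have hz : z ^ p = 1 := hzdef ▸ zetaPow_pow k
  have hz1 : 1 - z ≠ 0 := sub_ne_zero.mpr (Ne.symm (hzdef ▸ zetaPow_ne_one hk))
  have hvf := valuation_factors hA h2 h3 hz
  have hvn := valuation_cNum hA h2 h7 hz
  have hv0 := valuation_self hA hz
  have hlt := valuation_one_sub_lt hA hz
  have hz2 : 1 + z ≠ 0 := fun h => by simp [h] at hvf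
  obtain ⟨e0, e1⟩ := constDiff_eq hz1 hz2
  have ed : denCoeff z 0 = geomDeriv z - geomDeriv (z ^ 2) := by simp [denCoeff, tailCoeff]
  have en : numCoeff z 0 = geomDerivTwo z - geomDerivTwo (z ^ 2) := by simp [numCoeff, derivCoeff]
  set c0 := denCoeff z 0 with hc0
  set c1 := numCoeff z 0 with hc1
  have hd0 : A.valuation (1 - z) ≠ 0 := (map_ne_zero _).mpr hz1
  have hv_c0 : A.valuation c0 = (A.valuation (1 - z) ^ 2)⁻¹ := by
    rw [ed, e0, map_div₀, map_mul, map_mul, map_pow, map_pow, hv0, hvf.1, hvf.2]; simp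
  have hv_c1 : A.valuation c1 = (A.valuation (1 - z) ^ 3)⁻¹ := by
    rw [en, e1, map_div₀, map_mul, map_mul, map_pow, map_pow, hv0, hvf.1, hvn]; simp
  have hc0ne : c0 ≠ 0 := fun h => by
    rw [h, map_zero] at hv_c0; exact inv_ne_zero (pow_ne_zero 2 hd0) hv_c0.symm
  have hc1ne : c1 ≠ 0 := fun h => by
    rw [h, map_zero] at hv_c1; exact inv_ne_zero (pow_ne_zero 3 hd0) hv_c1.symm
  have hsl : slopeConst z = c1 / c0 := by rw [slopeConst, ed, en]
  have hne : slopeConst z ≠ 0 := by rw [hsl]; exact div_ne_zero hc1ne hc0ne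
  have hadm := twice_ne h2 h3 hk
  have hnm := fun v : ZMod p × ZMod p => UpperHalfPlane.mdifferentiable_iff.mp (wpN_mdiff' v)
  have hdm := fun v : ZMod p × ZMod p => UpperHalfPlane.mdifferentiable_iff.mp (wpD_mdiff v)
  have m0 : MDiff (fun τ : ℍ =>
      wpN (zArg ((0 : ZMod p), k) τ) τ - wpN (zArg ((0 : ZMod p), 2 * k) τ) τ) :=
    UpperHalfPlane.mdifferentiable_iff.mpr ((hnm (0, k)).sub (hnm (0, 2 * k)))
  have m1 : MDiff (fun τ : ℍ =>
      wpD (zArg ((0 : ZMod p), k) τ) τ - wpD (zArg ((0 : ZMod p), 2 * k) τ) τ) :=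
    UpperHalfPlane.mdifferentiable_iff.mpr ((hdm (0, k)).sub (hdm (0, 2 * k)))
  obtain ⟨a0, q0⟩ := series_facts m0 (hasSum_den h2 h3 hk)
  obtain ⟨-, q1⟩ := series_facts m1 (hasSum_num h2 h3 hk)
  rw [← hzdef] at q0 q1
  have af : AnalyticAt ℂ (cuspFunction 1 (slopeTwo k)) 0 := by
    have := analyticAt_cuspFunction_zero (hpos 1) (slopeTwo_isPer k).periodic_comp_ofComplex
      (slope_mdiff hadm) (slope_bdd hadm)
    simpa only [Nat.cast_one] using this
  have hmul : (slopeTwo k * fun τ : ℍ =>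
      wpN (zArg ((0 : ZMod p), k) τ) τ - wpN (zArg ((0 : ZMod p), 2 * k) τ) τ) =
      fun τ : ℍ => wpD (zArg ((0 : ZMod p), k) τ) τ - wpD (zArg ((0 : ZMod p), 2 * k) τ) τ :=
    funext fun τ => div_mul_cancel₀ _ (wpN_sub_ne hadm τ)
  have hq := qExpansion_mul af a0
  rw [hmul] at hq
  set P := qExpansion 1 (slopeTwo k)
  have hrec : ∀ n, ∑ x ∈ Finset.HasAntidiagonal.antidiagonal n,
      P.coeff x.1 / slopeConst z * (denCoeff z x.2 / c0) = numCoeff z n / c1 := by
    intro n
    rw [← q1 n, hq, PowerSeries.coeff_mul, Finset.sum_div]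
    refine Finset.sum_congr rfl fun x _ => ?_
    rw [q0, hsl]
    field_simp
  have hsmall : ∀ n, 0 < n → A.valuation (denCoeff z n / c0) < 1 ∧
      A.valuation (numCoeff z n / c1) < 1 := by
    intro n hn
    obtain ⟨b0, b1⟩ := coeff_sub_mem hA hz hn.ne'
    rw [map_div₀, map_div₀, hv_c0, hv_c1, div_inv_eq_mul, div_inv_eq_mul]
    exact ⟨lt_of_le_of_lt (mul_le_of_le_one_left' b0) (pow_lt_one₀ zero_le hlt two_ne_zero),
      lt_of_le_of_lt (mul_le_of_le_one_left' b1) (pow_lt_one₀ zero_le hlt three_ne_zero)⟩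
  obtain ⟨f0, fn⟩ := quotient_congr (A := A) (F := fun n => P.coeff n / slopeConst z)
    (fun n hn => (hsmall n hn).1) (fun n hn => (hsmall n hn).2) (div_self hc0ne) (div_self hc1ne)
    hrec
  exact ⟨hne, (div_eq_one_iff_eq hne).mp f0, fn⟩

/-- The constants at two multiples differ by the inverse of the multiplier modulo `m`. -/
theorem slopeConst_pow (hA : Over p A) (h2 : p ≠ 2) (h3 : p ≠ 3) (h7 : p ≠ 7) {z : ℂ}
    (hz : z ^ p = 1) (hz1 : z ≠ 1) {d : ℕ} (hd : ¬ p ∣ d) :
    A.valuation ((d : ℂ) * (slopeConst (z ^ d) / slopeConst z) - 1) < 1 := by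
  have hzd : (z ^ d) ^ p = 1 := by rw [← pow_mul, mul_comm, pow_mul, hz, one_pow]
  have hp := (Fact.out : p.Prime).ne_zero
  let a : A := ⟨z, zetaPow_mem hp hz⟩
  let b : A := ⟨z ^ d, zetaPow_mem hp hzd⟩
  let s : A := ∑ i ∈ Finset.range d, a ^ i
  have hra := residue_root_eq_one hA (z := a) (Subtype.ext (by simpa [a] using hz))
  have hrb := residue_root_eq_one hA (z := b) (Subtype.ext (by simpa [b] using hzd))
  have hrs : IsLocalRing.residue A s = IsLocalRing.residue A (d : A) := by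
    simp [s, hra, map_sum]
  have hnum : IsLocalRing.residue A
      ((d : A) * (cNum b * cDen a) - cNum a * cDen b * s) = 0 := by
    simp only [map_sub, map_mul, cNum, cDen, map_add, map_pow, map_one, hra, hrb, hrs]
    ring
  have hvs : A.valuation (s : ℂ) = 1 :=
    inv_mem_of_residue_ne (hrs ▸ residue_natCast_ne hA hd)
  have hvda := valuation_factors hA h2 h3 hz
  have hvdb := valuation_factors hA h2 h3 hzd
  have hvna := valuation_cNum hA h2 h7 hz
  have hvnb := valuation_cNum hA h2 h7 hzd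
  have hdenb : A.valuation (cDen (z ^ d)) = 1 := by
    rw [cDen, map_mul, hvdb.1, hvdb.2, one_mul]
  have hdena : A.valuation (cDen z) = 1 := by rw [cDen, map_mul, hvda.1, hvda.2, one_mul]
  have hsC : (s : ℂ) * (1 - z) = 1 - z ^ d := by
    have h := geom_sum_mul_neg z d
    simpa [s, a] using h
  have hz1' : 1 - z ≠ 0 := sub_ne_zero.mpr (Ne.symm hz1)
  have hs0 : (s : ℂ) ≠ 0 := fun h => by simp [h] at hvs
  have hzd1 : 1 - z ^ d ≠ 0 := hsC ▸ mul_ne_zero hs0 hz1'
  have hne : ∀ {x : ℂ}, A.valuation x = 1 → x ≠ 0 := fun {x} hx h => by simp [h] at hx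
  have hconst : ∀ {y : ℂ}, 1 - y ≠ 0 → A.valuation (1 + y) = 1 →
      A.valuation (1 + y + y ^ 2) = 1 → A.valuation y = 1 →
      slopeConst y = cNum y / ((1 - y) * cDen y) := by
    intro y h1 h2' h3' h4
    have := hne h2'
    have := hne h3'
    have := hne h4
    rw [slopeConst, (constDiff_eq h1 (hne h2')).1, (constDiff_eq h1 (hne h2')).2, cDen]
    field_simp
  rw [hconst hz1' hvda.1 hvda.2 (valuation_self hA hz),
    hconst hzd1 hvdb.1 hvdb.2 (valuation_self hA hzd), ← hsC]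
  have hna := hne hvna
  have hda := hne hdena
  have hdb := hne hdenb
  have key : (d : ℂ) * (cNum (z ^ d) / ((s : ℂ) * (1 - z) * cDen (z ^ d)) /
      (cNum z / ((1 - z) * cDen z))) - 1 =
      (((d : A) * (cNum b * cDen a) - cNum a * cDen b * s : A) : ℂ) /
        (cNum z * cDen (z ^ d) * (s : ℂ)) := by
    have hb : ((cNum b : A) : ℂ) = cNum (z ^ d) := by simp [cNum, b]
    have ha : ((cNum a : A) : ℂ) = cNum z := by simp [cNum, a]
    have hb' : ((cDen b : A) : ℂ) = cDen (z ^ d) := by simp [cDen, b]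
    have ha' : ((cDen a : A) : ℂ) = cDen z := by simp [cDen, a]
    push_cast
    rw [hb, ha, hb', ha']
    field_simp
  rw [key, map_div₀, map_mul, map_mul, hvna, hdenb, hvs, one_mul, one_mul, div_one]
  exact valuation_lt_of_residue_eq hnum

end Fermat.Agent.Row48.WeightOne
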