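import Mathlib.NumberTheory.MulChar.Lemmas
import Mathlib.RingTheory.RootsOfUnity.Complex
import Mathlib.NumberTheory.DirichletCharacter.Basic
import Fermat.Prelude.Def_FLTPrelim_Modularity
import Fermat.Agent.Row48.WeightOne.Congruence

/-!
# A form of weight one and level `p` that is one modulo a place over `p`
-/

set_option autoImplicit false

noncomputable section

open Filter Topology UpperHalfPlane CongruenceSubgroup
open scoped Real Manifold MatrixGroups ModularForm

namespace Fermat.Agent.Row48.WeightOne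

open Mazur.Moduli X0Analytic

variable {p : ℕ} [Fact p.Prime] {A : ValuationSubring ℂ}

theorem residue_eq_of_lt {x y : A} (h : A.valuation ((x : ℂ) - y) < 1) :
    IsLocalRing.residue A x = IsLocalRing.residue A y := by
  rw [← sub_eq_zero, ← map_sub, IsLocalRing.residue_eq_zero_iff,
    ValuationSubring.valuation_lt_one_iff]
  exact h

/-- An element with a root of unity of order dividing `p - 1` in its class. -/
theorem exists_root_near (hA : Over p A) {a : ℕ} (ha : ¬ p ∣ a) :
    ∃ ω : ℂ, ω ^ (p - 1) = 1 ∧ A.valuation ((a : ℂ) - ω) < 1 := by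
  have hp := (Fact.out : p.Prime)
  have hpos : 0 < p - 1 := by have := hp.two_le; omega
  have hch := charP_residue hA
  have hk : IsLocalRing.residue A ((a : A) ^ (p - 1) - 1) = 0 := by
    rw [map_sub, map_pow, map_one, map_natCast, ← map_natCast (ZMod.castHom (dvd_refl p)
      (IsLocalRing.ResidueField A)), ← map_pow, ZMod.pow_card_sub_one_eq_one, map_one, sub_self]
    rwa [Ne, ZMod.natCast_eq_zero_iff]
  have hlt : A.valuation ((a : ℂ) ^ (p - 1) - 1) < 1 := by
    simpa using valuation_lt_of_residue_eq hk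
  have hζ := Complex.isPrimitiveRoot_exp (p - 1) hpos.ne'
  by_contra hcon
  push Not at hcon
  have hprod : (a : ℂ) ^ (p - 1) - 1 = ∏ ω ∈ Polynomial.nthRootsFinset (p - 1) (1 : ℂ),
      ((a : ℂ) - ω) := by
    have h := congrArg (Polynomial.eval (a : ℂ)) (Polynomial.X_pow_sub_one_eq_prod hpos hζ)
    simpa [Polynomial.eval_prod] using h
  rw [hprod, map_prod] at hlt
  refine hlt.not_ge (Finset.one_le_prod' fun ω hω => hcon ω ?_)
  exact (Polynomial.mem_nthRootsFinset hpos 1).mp hω

/-- The Teichmüller lift of `d ↦ d⁻¹`. -/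
theorem exists_teichInv (hA : Over p A) :
    ∃ χ : DirichletCharacter ℂ p, ∀ d : (ZMod p)ˣ, A.valuation (χ d) = 1 ∧
      A.valuation (χ d * ((d : ZMod p).val : ℂ) - 1) < 1 := by
  have hp := (Fact.out : p.Prime)
  obtain ⟨g, hg⟩ := IsCyclic.exists_generator (α := (ZMod p)ˣ)
  have hnd : ∀ d : (ZMod p)ˣ, ¬ p ∣ (d : ZMod p).val := fun d h => d.ne_zero (by
    rw [← ZMod.natCast_zmod_val (d : ZMod p), ZMod.natCast_eq_zero_iff]; exact h)
  obtain ⟨ω, hω, hωg⟩ := exists_root_near hA (hnd g⁻¹)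
  have hω0 : ω ≠ 0 := fun h => by
    rw [h, zero_pow (by have := hp.two_le; omega)] at hω; exact zero_ne_one hω
  have hroot : Units.mk0 ω hω0 ∈ rootsOfUnity (Fintype.card (ZMod p)ˣ) ℂ := by
    rw [mem_rootsOfUnity, ZMod.card_units]
    exact Units.ext (by simpa using hω)
  let χ : DirichletCharacter ℂ p := MulChar.ofRootOfUnity hroot hg
  have hval : ∀ d : (ZMod p)ˣ, A.valuation (χ d) = 1 := by
    intro d
    have h : χ d ^ (p - 1) = 1 := by
      rw [← map_pow, ← Units.val_pow_eq_pow_val, ← ZMod.card_units p, pow_card_eq_one,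
        Units.val_one, map_one]
    have h' := congrArg A.valuation h
    rw [map_pow, map_one] at h'
    exact (pow_eq_one_iff_of_nonneg zero_le (by have := hp.two_le; omega)).mp h'
  let χA : (ZMod p)ˣ → A := fun d => ⟨χ d, (A.valuation_le_one_iff _).mp (hval d).le⟩
  have hch := charP_residue hA
  let φ : (ZMod p)ˣ →* IsLocalRing.ResidueField A :=
    { toFun := fun d => IsLocalRing.residue A (χA d) *
        ZMod.castHom (dvd_refl p) (IsLocalRing.ResidueField A) (d : ZMod p)
      map_one' := by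
        rw [show χA 1 = 1 from Subtype.ext (by simp [χA]), Units.val_one, map_one, map_one, one_mul]
      map_mul' := fun x y => by
        rw [show χA (x * y) = χA x * χA y from Subtype.ext (by simp [χA]), Units.val_mul, map_mul,
          map_mul]
        ring }
  have hcast : ∀ d : (ZMod p)ˣ, IsLocalRing.residue A ((d : ZMod p).val : A) =
      ZMod.castHom (dvd_refl p) (IsLocalRing.ResidueField A) (d : ZMod p) := fun d => by
    rw [map_natCast, ← map_natCast (ZMod.castHom (dvd_refl p) (IsLocalRing.ResidueField A)),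
      ZMod.natCast_zmod_val]
  have hφg : φ g = 1 := by
    have h1 : IsLocalRing.residue A (χA g) =
        IsLocalRing.residue A (((g⁻¹ : (ZMod p)ˣ) : ZMod p).val : A) := by
      refine residue_eq_of_lt ?_
      rw [Valuation.map_sub_swap]
      have : χ g = ω := by
        show MulChar.ofRootOfUnity hroot hg g = ω
        rw [MulChar.ofRootOfUnity_spec]
        rfl
      show A.valuation ((((((g⁻¹ : (ZMod p)ˣ) : ZMod p).val : ℕ) : A) : ℂ) - χ g) < 1
      rw [this, show ∀ n : ℕ, (((n : A)) : ℂ) = (n : ℂ) from fun n => map_natCast A.subtype n]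
      exact hωg
    show IsLocalRing.residue A (χA g) * _ = 1
    rw [h1, hcast, ← map_mul, Units.inv_mul, map_one]
  refine ⟨χ, fun d => ⟨hval d, ?_⟩⟩
  have hφ : φ d = 1 := by
    obtain ⟨n, rfl⟩ := (mem_powers_iff_mem_zpowers).mpr (hg d)
    rw [show (fun x => g ^ x) n = g ^ n from rfl, map_pow, hφg, one_pow]
  have h := valuation_lt_of_residue_eq (A := A)
    (x := χA d * ((d : ZMod p).val : A) - 1) (by
      rw [map_sub, map_mul, hcast, map_one]
      exact sub_eq_zero.mpr hφ)
  simpa [χA, -ZMod.natCast_val] using h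

omit [Fact p.Prime] in
theorem one_mem_strictPeriods : (1 : ℝ) ∈ ((Gamma1 p : Subgroup (GL (Fin 2) ℝ))).strictPeriods := by
  simp

/-- The twisted sum of the slopes. -/
def twistedSum (χ : DirichletCharacter ℂ p) (h2 : p ≠ 2) (h3 : p ≠ 3) :
    ModularForm (Gamma1 p) 1 :=
  ∑ d : (ZMod p)ˣ, (χ d)⁻¹ • slopeForm (d : ZMod p) (2 * d) (twice_ne h2 h3 d.ne_zero)

theorem coe_twistedSum (χ : DirichletCharacter ℂ p) (h2 : p ≠ 2) (h3 : p ≠ 3) :
    ⇑(twistedSum χ h2 h3) = ∑ d : (ZMod p)ˣ, (χ d)⁻¹ • slopeTwo (d : ZMod p) := by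
  simp only [twistedSum, FunLike.coe_sum, FunLike.coe_smul, coe_slopeForm]
  rfl

theorem twistedSum_slash (χ : DirichletCharacter ℂ p) (h2 : p ≠ 2) (h3 : p ≠ 3) {γ : SL(2, ℤ)}
    (hγ : γ ∈ Gamma0 p) :
    ⇑(twistedSum χ h2 h3) ∣[(1 : ℤ)] γ =
      χ ((γ 1 1 : ℤ) : ZMod p) • ⇑(twistedSum χ h2 h3) := by
  have hu : IsUnit (((γ 1 1 : ℤ)) : ZMod p) := by
    have hdet := Matrix.SpecialLinearGroup.det_coe γ
    rw [Matrix.det_fin_two] at hdet
    have h := congrArg (fun x : ℤ => (x : ZMod p)) hdet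
    simp only [Int.cast_sub, Int.cast_mul, Gamma0_mem.mp hγ, mul_zero, sub_zero, Int.cast_one] at h
    exact IsUnit.of_mul_eq_one_right _ h
  obtain ⟨e, he⟩ := hu
  rw [coe_twistedSum, ← he]
  funext τ
  simp only [ModularForm.SL_slash_apply, Finset.sum_apply, Pi.smul_apply, smul_eq_mul,
    Finset.mul_sum, Finset.sum_mul]
  rw [← Equiv.sum_comp (Equiv.mulRight e)
    (fun d : (ZMod p)ˣ => χ (e : ZMod p) * ((χ d)⁻¹ * slopeTwo (d : ZMod p) τ))]
  refine Finset.sum_congr rfl fun d _ => ?_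
  have h := congrFun (slope_slash ((0 : ZMod p), (d : ZMod p)) (0, 2 * d) γ) τ
  rw [ModularForm.SL_slash_apply, rowMul_of_mem_Gamma0 hγ, rowMul_of_mem_Gamma0 hγ, ← he,
    mul_assoc (2 : ZMod p)] at h
  have hne : χ (e : ZMod p) ≠ 0 := (e.isUnit.map χ).ne_zero
  rw [mul_assoc, slopeTwo, h, Equiv.coe_mulRight, slopeTwo, Units.val_mul, map_mul, mul_inv,
    ← mul_assoc (χ (e : ZMod p)), mul_left_comm (χ (e : ZMod p)), mul_inv_cancel₀ hne, mul_one]

/-- **A form of weight one congruent to one.** -/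
theorem exists_weightOne {p : ℕ} [Fact p.Prime] (A : ValuationSubring ℂ)
    (hA : (p : ℂ) ∈ A.nonunits) (h2 : p ≠ 2) (h3 : p ≠ 3) (h7 : p ≠ 7) :
    ∃ (χ : DirichletCharacter ℂ p) (E : ModularForm (Gamma1 p) 1),
      (∀ γ ∈ Gamma0 p, ⇑E ∣[(1 : ℤ)] γ = χ ((γ 1 1 : ℤ) : ZMod p) • ⇑E) ∧
      (∀ d : ℕ, ¬ p ∣ d → χ (d : ZMod p) * (d : ℂ) - 1 ∈ A.nonunits) ∧
      ModularFormClass.qCoeff E 0 = 1 ∧
      ∀ n, 0 < n → ModularFormClass.qCoeff E n ∈ A.nonunits := by
  obtain ⟨χ, hχ⟩ := exists_teichInv (A := A) hA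
  set G := twistedSum χ h2 h3
  let z : (ZMod p)ˣ → ℂ := fun d => zetaC p ^ (d : ZMod p).val
  have hS := fun d : (ZMod p)ˣ => slopeTwo_congr (A := A) hA h2 h3 h7 d.ne_zero
  let P : (ZMod p)ˣ → PowerSeries ℂ := fun d => qExpansion 1 (slopeTwo (d : ZMod p))
  have hG : ∀ n, (qExpansion 1 ⇑G).coeff n = ∑ d : (ZMod p)ˣ, (χ d)⁻¹ * (P d).coeff n := by
    intro n
    refine (ModularFormClass.qExpansion_coeff_unique one_pos one_mem_strictPeriods
      (f := G) (c := fun m => ∑ d : (ZMod p)ˣ, (χ d)⁻¹ * (P d).coeff m) (fun τ => ?_) n).symm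
    have h : ∀ d : (ZMod p)ˣ, HasSum
        (fun m => (P d).coeff m • Function.Periodic.qParam 1 (τ : ℂ) ^ m)
          (slopeTwo (d : ZMod p) τ) :=
      fun d => UpperHalfPlane.hasSum_qExpansion one_pos
        (by simpa [slopeTwo] using (slopeTwo_isPer (d : ZMod p)).periodic_comp_ofComplex)
        (slope_mdiff (twice_ne h2 h3 d.ne_zero)) (slope_bdd (twice_ne h2 h3 d.ne_zero)) τ
    have hs := hasSum_sum (s := Finset.univ) fun (d : (ZMod p)ˣ) _ => (h d).mul_left (χ d)⁻¹
    rw [show G τ = ∑ d : (ZMod p)ˣ, (χ d)⁻¹ * slopeTwo (d : ZMod p) τ by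
      rw [coe_twistedSum]; simp [Finset.sum_apply]]
    refine hs.congr_fun fun m => ?_
    simp only [smul_eq_mul, Finset.sum_mul, mul_assoc]
  set e := slopeConst (z 1) with he
  have he0 : e ≠ 0 := (hS 1).1
  have hz1 : zetaC p ^ ((1 : (ZMod p)ˣ) : ZMod p).val = zetaC p := by
    rw [Units.val_one, ZMod.val_one, pow_one]
  -- every term has constant term `1` modulo `m`
  have hterm : ∀ d : (ZMod p)ˣ, A.valuation ((χ d)⁻¹ * (P d).coeff 0 / e - 1) < 1 ∧
      A.valuation ((χ d)⁻¹ * (P d).coeff 0 / e) = 1 := by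
    intro d
    have hzd : z d = z 1 ^ (d : ZMod p).val := by
      show zetaC p ^ _ = _
      rw [show z 1 = zetaC p from hz1]
    have hnd : ¬ p ∣ (d : ZMod p).val := fun h => d.ne_zero (by
      rw [← ZMod.natCast_zmod_val (d : ZMod p), ZMod.natCast_eq_zero_iff]; exact h)
    have h1 := slopeConst_pow hA h2 h3 h7 (z := z 1) (zetaPow_pow _)
      (zetaPow_ne_one (Units.ne_zero 1)) hnd
    rw [← hzd] at h1
    have h2' := (hχ d).2
    have hχ0 : χ d ≠ 0 := fun h => by simpa [h] using (hχ d).1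
    rw [show (P d).coeff 0 = slopeConst (z d) from (hS d).2.1]
    set r := slopeConst (z d) / slopeConst (z 1)
    set N : ℂ := ((d : ZMod p).val : ℂ)
    have hNr : A.valuation (N * r) = 1 := by
      have := Valuation.map_add_eq_of_lt_right A.valuation (x := N * r - 1) (y := 1)
        (by rwa [map_one])
      rwa [sub_add_cancel, map_one] at this
    have hNχ : A.valuation (χ d * N) = 1 := by
      have := Valuation.map_add_eq_of_lt_right A.valuation (x := χ d * N - 1) (y := 1)
        (by rwa [map_one])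
      rwa [sub_add_cancel, map_one] at this
    have hN0 : N ≠ 0 := fun h => by simp [h] at hNr
    have e1 : (χ d)⁻¹ * slopeConst (z d) / e = N * r / (χ d * N) := by
      rw [he, mul_div_assoc]; field_simp; rfl
    have hval : A.valuation ((χ d)⁻¹ * slopeConst (z d) / e) = 1 := by
      rw [e1, map_div₀, hNr, hNχ, div_one]
    refine ⟨?_, hval⟩
    rw [e1, div_sub_one (mul_ne_zero hχ0 hN0), map_div₀, hNχ, div_one,
      show N * r - χ d * N = (N * r - 1) - (χ d * N - 1) by ring]
    exact Valuation.map_sub_lt _ h1 h2'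
  set C := (qExpansion 1 ⇑G).coeff 0 with hC
  have hCe : A.valuation (C / e) = 1 := by
    have hsum : C / e = ((p - 1 : ℕ) : ℂ) +
        ∑ d : (ZMod p)ˣ, ((χ d)⁻¹ * (P d).coeff 0 / e - 1) := by
      rw [hC, hG, Finset.sum_div, Finset.sum_sub_distrib, Finset.sum_const, Finset.card_univ,
        ZMod.card_units, nsmul_one, add_sub_cancel]
    have hlt : A.valuation (∑ d : (ZMod p)ˣ, ((χ d)⁻¹ * (P d).coeff 0 / e - 1)) < 1 :=
      Valuation.map_sum_lt _ one_ne_zero fun d _ => (hterm d).1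
    have hu : A.valuation ((p - 1 : ℕ) : ℂ) = 1 := by
      refine inv_mem_of_residue_ne (x := ((p - 1 : ℕ) : A)) (residue_natCast_ne hA fun h => ?_)
      have := (Fact.out : p.Prime).two_le
      have := Nat.le_of_dvd (by omega) h
      omega
    rw [hsum, Valuation.map_add_eq_of_lt_left _ (by rwa [hu]), hu]
  have hC0 : C ≠ 0 := fun h => by simp [h] at hCe
  refine ⟨χ, C⁻¹ • G, fun γ hγ => ?_, fun d hd => ?_, ?_, fun n hn => ?_⟩
  · rw [FunLike.coe_smul, ModularForm.SL_smul_slash, twistedSum_slash χ h2 h3 hγ, smul_comm]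
  · rw [ValuationSubring.mem_nonunits_iff]
    have hd' : (d : ZMod p) ≠ 0 := by rwa [Ne, ZMod.natCast_eq_zero_iff]
    obtain ⟨hv, h⟩ := hχ (Units.mk0 _ hd')
    rw [Units.val_mk0] at h hv
    have hcast : A.valuation ((d : ℂ) - ((d : ZMod p).val : ℂ)) < 1 := by
      have hch := charP_residue hA
      have h' : IsLocalRing.residue A ((d : A) - ((d : ZMod p).val : A)) = 0 := by
        rw [map_sub, map_natCast, map_natCast, ZMod.val_natCast, sub_eq_zero]
        exact ((CharP.natCast_eq_natCast _ p).mpr (Nat.mod_modEq d p)).symm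
      simpa using valuation_lt_of_residue_eq h'
    rw [show χ (d : ZMod p) * (d : ℂ) - 1 = (χ (d : ZMod p) * ((d : ZMod p).val : ℂ) - 1) +
      χ (d : ZMod p) * ((d : ℂ) - ((d : ZMod p).val : ℂ)) by ring]
    refine Valuation.map_add_lt _ h ?_
    rw [map_mul, hv, one_mul]
    exact hcast
  all_goals
    rw [ModularFormClass.qCoeff, FunLike.coe_smul,
      ModularForm.qExpansion_smul one_pos one_mem_strictPeriods, map_smul, smul_eq_mul]
  · exact inv_mul_cancel₀ hC0
  · rw [ValuationSubring.mem_nonunits_iff, show C⁻¹ * (qExpansion 1 ⇑G).coeff n =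
      ((qExpansion 1 ⇑G).coeff n / e) / (C / e) by field_simp, map_div₀, hCe, div_one, hG,
      Finset.sum_div]
    refine Valuation.map_sum_lt _ one_ne_zero fun d _ => ?_
    rw [show (χ d)⁻¹ * (P d).coeff n / e =
      ((χ d)⁻¹ * (P d).coeff 0 / e) * ((P d).coeff n / (P d).coeff 0) by
        have : (P d).coeff 0 ≠ 0 := (hS d).2.1 ▸ (hS d).1
        field_simp, map_mul, (hterm d).2, one_mul, show (P d).coeff 0 = _ from (hS d).2.1]
    exact (hS d).2.2 n hn

end Fermat.Agent.Row48.WeightOne
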